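import Mathlib
import Fermat.Prelude.Def_GaloisRep_Residual
import Fermat.Prelude.Def_Deformations_MatrixRepresentation

/-!
# S48 (Deligne–Serre): interface statements of the DS wave

Blueprint: `NOTES/blueprint-S48.md` (helper22: DS-specific part; helper93: `(W)` = mod-`ℓ`
representations).  As in the other clusters, the statements exchanged between the work packages
are `Prop`-valued *definitions*:

* the owner of a work package proves `theorem xxx : Fermat.Agent.S48.XxxStatement`;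
* a user takes `(h : Fermat.Agent.S48.XxxStatement)` as a hypothesis.

Never edit this file (other files depend on the exact statements); ask helper22.
-/

set_option autoImplicit false

open CongruenceSubgroup Polynomial

namespace Fermat.Agent.S48

local notation "Γℚ" => (AlgebraicClosure ℚ ≃ₐ[ℚ] AlgebraicClosure ℚ)

/-! ## The data -/

/-- The Hecke relations of S48 for a sequence `a` and a character `ε` (only at `p ∤ N`). -/
def HeckeRel (N : ℕ) (ε : DirichletCharacter ℂ N) (a : ℕ → ℂ) : Prop :=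
  a 1 = 1 ∧ ∀ p : ℕ, p.Prime → ¬ p ∣ N → ∀ n : ℕ,
    a (p * n) + ε (p : ZMod N) * (if p ∣ n then a (n / p) else 0) = a p * a n

/-- The conclusion of S48 for `(N, ε, a)`. -/
def DSConclusion (N : ℕ) (ε : DirichletCharacter ℂ N) (a : ℕ → ℂ) : Prop :=
  ∃ ρ : Γℚ →* GL (Fin 2) ℂ, GaloisFactorsThroughFiniteLevel ρ ∧
    (Deformation.matrixRepresentation ρ).IsIrreducible ∧
    ∀ p : ℕ, p.Prime → ¬ p ∣ N →
      ∀ A : ValuationSubring (AlgebraicClosure ℚ), A.LiesOverPrime p →
        (∀ σ ∈ A.inertiaSubgroupIn ℚ, ρ σ = 1) ∧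
        ∀ σ : Γℚ, A.IsFrobeniusAt σ p →
          ((ρ σ : GL (Fin 2) ℂ) : Matrix (Fin 2) (Fin 2) ℂ).trace = a p ∧
          ((ρ σ : GL (Fin 2) ℂ) : Matrix (Fin 2) (Fin 2) ℂ).det = ε (p : ZMod N)

/-! ## Logarithmic density, in `Finset` form (no summability side conditions) -/

/-- `X` (a set of primes) has upper logarithmic density `≤ η`:
`∑_{p ∈ X} p^{-s} ≤ η log (1/(s-1)) + C` for `1 < s < 2`. -/
def UpperLogDensityLE (X : Set ℕ) (η : ℝ) : Prop :=
  ∃ C : ℝ, ∀ s : ℝ, 1 < s → s < 2 → ∀ F : Finset ℕ, (∀ p ∈ F, p.Prime ∧ p ∈ X) →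
    ∑ p ∈ F, (p : ℝ) ^ (-s) ≤ η * Real.log (1 / (s - 1)) + C

/-- `X` (a set of primes) has lower logarithmic density `≥ δ` (limit form): for every `ε > 0`
and `s` close to `1` there are finitely many primes of `X` with
`∑ p^{-s} ≥ (δ - ε) log (1/(s-1)) - C`. -/
def LowerLogDensityGE (X : Set ℕ) (δ : ℝ) : Prop :=
  ∀ ε : ℝ, 0 < ε → ∃ C s₀ : ℝ, 1 < s₀ ∧ ∀ s : ℝ, 1 < s → s < s₀ →
    ∃ F : Finset ℕ, (∀ p ∈ F, p.Prime ∧ p ∈ X) ∧
      (δ - ε) * Real.log (1 / (s - 1)) - C ≤ ∑ p ∈ F, (p : ℝ) ^ (-s)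

/-! ## (P4) Rankin -/

/-- **(P4) Rankin, product form.**  For a weight-one cusp form `g` on `Γ₁(M)` whose coefficients
satisfy the Hecke relations away from `N` (any `N`, any character):
`∏_{p ∈ F} (1 + |a_p|² p^{-s}) ≤ C/(s-1)` for every finite set `F` of primes not dividing `N`.
(Mean square `∑_{n ≤ X} |a_n|² ≤ C X` by `CuspFormClass.exists_bound` + Parseval; the product is
a partial sum of `∑ |a_n|² n^{-s}` over squarefree `n`.) -/
def RankinStatement : Prop :=
  ∀ (M : ℕ) [NeZero M] (g : CuspForm (Gamma1 M) 1) (N : ℕ) (ψ : DirichletCharacter ℂ N),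
    HeckeRel N ψ (fun n => ModularFormClass.qCoeff g n) →
    ∃ C : ℝ, ∀ s : ℝ, 1 < s → s < 2 → ∀ F : Finset ℕ, (∀ p ∈ F, p.Prime ∧ ¬ p ∣ N) →
      ∏ p ∈ F, (1 + ‖ModularFormClass.qCoeff g p‖ ^ 2 * (p : ℝ) ^ (-s)) ≤ C / (s - 1)

/-! ## (P1) nebentypus -/

/-- Unnormalised Hecke relations: `c` is an eigen-sequence with eigenvalues `a p` (`p ∤ N`). -/
def UHeckeRel (N : ℕ) (ε : DirichletCharacter ℂ N) (a c : ℕ → ℂ) : Prop :=
  ∀ p : ℕ, p.Prime → ¬ p ∣ N → ∀ n : ℕ,
    c (p * n) + ε (p : ZMod N) * (if p ∣ n then c (n / p) else 0) = a p * c n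

/-- **(P1) Nebentypus.**  A weight-one cusp form on `Γ₁(N)` whose `q`-coefficients satisfy the
(unnormalised) Hecke relations for `ε` at all `p ∤ N` has nebentypus `ε`.
(`T_p g = a_p g + V_p(⟨p⟩ g - ε(p) g)`; `h, V_p h ∈ S₁(Γ₁(N))`, `p ∤ N` `⟹ h = 0`; Dirichlet.) -/
def NebStatement : Prop :=
  ∀ (N : ℕ) [NeZero N] (ε : DirichletCharacter ℂ N) (g : CuspForm (Gamma1 N) 1) (a : ℕ → ℂ),
    UHeckeRel N ε a (fun n => ModularFormClass.qCoeff g n) →
    ∀ γ : Matrix.SpecialLinearGroup (Fin 2) ℤ, γ ∈ Gamma0 N → ∀ z : UpperHalfPlane,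
      SlashAction.map (1 : ℤ) γ (g : UpperHalfPlane → ℂ) z
        = ε (((γ 1 1 : ℤ)) : ZMod N) * g z

/-! ## (P3) integral structure, conjugates and integrality -/

/-- **(S23G1) Integral structure of `S₁(Γ₁(N))`** (= S23 ported from `Γ₀(N)` to `Γ₁(N)`, weight
one): every weight-one cusp form on `Γ₁(N)` is a `ℂ`-linear combination of cusp forms with
integer `q`-coefficients. -/
def IntStructStatement : Prop :=
  ∀ (N : ℕ) [NeZero N] (f : CuspForm (Gamma1 N) 1),
    f ∈ Submodule.span ℂ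
      {g : CuspForm (Gamma1 N) 1 | ∀ n : ℕ, ∃ m : ℤ, ModularFormClass.qCoeff g n = (m : ℂ)}

/-- **(P3a) Conjugate forms**: for every ring endomorphism `τ` of `ℂ` and every weight-one cusp
form `f` on `Γ₁(N)`, the conjugate series `∑ τ(a_n) q^n` is the `q`-expansion of a weight-one
cusp form on `Γ₁(N)`. -/
def ConjStatement : Prop :=
  ∀ (N : ℕ) [NeZero N] (f : CuspForm (Gamma1 N) 1) (τ : ℂ →+* ℂ),
    ∃ g : CuspForm (Gamma1 N) 1,
      ∀ n : ℕ, ModularFormClass.qCoeff g n = τ (ModularFormClass.qCoeff f n)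

/-- **(P3b) Integrality.**  The `a_p`, `p ∤ N`, are algebraic integers and lie in a number
field. -/
def IntegralStatement : Prop :=
  ∀ (N : ℕ) [NeZero N] (ε : DirichletCharacter ℂ N) (f : CuspForm (Gamma1 N) 1),
    HeckeRel N ε (fun n => ModularFormClass.qCoeff f n) →
    (∀ p : ℕ, p.Prime → ¬ p ∣ N → IsIntegral ℤ (ModularFormClass.qCoeff f p)) ∧
    ∃ K : IntermediateField ℚ ℂ, FiniteDimensional ℚ K ∧
      ∀ p : ℕ, p.Prime → ¬ p ∣ N → ModularFormClass.qCoeff f p ∈ K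

/-- **(P3c) Algebraic eigenvector**: there is a nonzero weight-one cusp form on `Γ₁(N)` with the
same eigenvalues `a_p` (`p ∤ N`), all of whose `q`-coefficients are algebraic integers in a
number field.  (The given `f` can have transcendental `a_n`, `(n, N) > 1`.) -/
def AlgStatement : Prop :=
  ∀ (N : ℕ) [NeZero N] (ε : DirichletCharacter ℂ N) (f : CuspForm (Gamma1 N) 1),
    HeckeRel N ε (fun n => ModularFormClass.qCoeff f n) →
    ∃ (g : CuspForm (Gamma1 N) 1) (c : ℕ → integralClosure ℤ ℂ),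
      (∀ n, (c n : ℂ) = ModularFormClass.qCoeff g n) ∧ (∃ n, c n ≠ 0) ∧
      (∃ K : IntermediateField ℚ ℂ, FiniteDimensional ℚ K ∧ ∀ n, (c n : ℂ) ∈ K) ∧
      ∀ p : ℕ, p.Prime → ¬ p ∣ N → ∀ n : ℕ,
        (c (p * n) : ℂ) + ε (p : ZMod N) * (if p ∣ n then (c (n / p) : ℂ) else 0)
          = ModularFormClass.qCoeff f p * c n

/-- **(Stage II) Finitely many values off a thin set** (from P3a + P3b + P4 + Northcott). -/
def FiniteValuesStatement : Prop :=
  ∀ (N : ℕ) [NeZero N] (ε : DirichletCharacter ℂ N) (f : CuspForm (Gamma1 N) 1),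
    HeckeRel N ε (fun n => ModularFormClass.qCoeff f n) → ∀ η : ℝ, 0 < η →
    ∃ (Y : Finset ℂ) (X : Set ℕ), UpperLogDensityLE X η ∧
      ∀ p : ℕ, p.Prime → ¬ p ∣ N → p ∉ X → ModularFormClass.qCoeff f p ∈ Y

/-! ## (W) mod-`ℓ` representations: consumer form (the wall itself is `S48W.WallStatement`) -/

/-- `ρ` is a mod-`ℓ` representation attached to `(a, ε)` via `φ`: unramified outside `N ℓ`,
with characteristic polynomial `X² - φ(a_p) X + φ(ε(p))` at the Frobenius elements at `p ∤ N ℓ`. -/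
def IsAttachedModL (N : ℕ) (ε : DirichletCharacter ℂ N) (a : ℕ → ℂ) (ℓ : ℕ)
    {k : Type} [Field k] (φ : integralClosure ℤ ℂ →+* k) (ρ : ResidualGaloisRep k) : Prop :=
  ∀ p : ℕ, p.Prime → ¬ p ∣ N * ℓ → ρ.IsUnramifiedAt p ∧
    ∀ A : ValuationSubring (AlgebraicClosure ℚ), A.LiesOverPrime p →
      ∀ σ : Γℚ, A.IsFrobeniusAt σ p →
        ∃ t d : integralClosure ℤ ℂ, (t : ℂ) = a p ∧ (d : ℂ) = ε (p : ZMod N) ∧
          LinearMap.charpoly (ρ.ρ σ) = X ^ 2 - C (φ t) * X + C (φ d)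

/-- **(W'), consumer form of the wall** (= `S48W.WallStatement` + P1 + P3c):
for all primes `ℓ` outside a finite set and every `φ : ℤ̄ → k`, `k` algebraically closed of
characteristic `ℓ`, there is a mod-`ℓ` representation attached to `f`. -/
def ModLStatement : Prop :=
  ∀ (N : ℕ) [NeZero N] (ε : DirichletCharacter ℂ N) (f : CuspForm (Gamma1 N) 1),
    HeckeRel N ε (fun n => ModularFormClass.qCoeff f n) →
    ∃ S : Finset ℕ, ∀ ℓ : ℕ, ℓ.Prime → ℓ ∉ S →
      ∀ (k : Type) [Field k] [CharP k ℓ] [IsAlgClosed k] (φ : integralClosure ℤ ℂ →+* k),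
        ∃ ρ : ResidualGaloisRep k,
          IsAttachedModL N ε (fun n => ModularFormClass.qCoeff f n) ℓ φ ρ

/-! ## (P5) Chebotarev -/

/-- The primes all of whose Frobenius elements are mapped into `C` by `r`. -/
def frobPrimes {G : Type} (r : Γℚ → G) (C : Set G) : Set ℕ :=
  {p | p.Prime ∧ ∀ A : ValuationSubring (AlgebraicClosure ℚ), A.LiesOverPrime p →
    ∀ σ : Γℚ, A.IsFrobeniusAt σ p → r σ ∈ C}

/-- **(P5) Chebotarev's density theorem, up to inversion, lower bound** (sub-architect helper8):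
for `r : Gal(ℚ̄/ℚ) ↠ G` finite, factoring through a finite level, and `C ⊆ G` stable under
conjugation AND inversion, the primes with Frobenius in `C` have lower logarithmic density
`≥ |C|/|G|`.  (Enough for BND and IRR: `tr g⁻¹ = tr g / det g`, `|tr g⁻¹| = |tr g|`.) -/
def ChebotarevStatement : Prop :=
  ∀ (G : Type) [Group G] [Finite G] (r : Γℚ →* G), Function.Surjective r →
    GaloisFactorsThroughFiniteLevel r → ∀ C : Set G, (∀ g h : G, g ∈ C → h * g * h⁻¹ ∈ C) →
    (∀ g : G, g ∈ C → g⁻¹ ∈ C) →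
    LowerLogDensityGE (frobPrimes r C) ((Nat.card C : ℝ) / Nat.card G)

/-! ## Endgame -/

/-- **(BND) Bounded image** (from Stage II + (W') + P5 + P6 = `S48BI.card_le_of_good_subset`):
the mod-`ℓ` representations attached to `f` can be chosen with image of bounded order and with
nondegenerate trace form (semisimple), uniformly in `ℓ`. -/
def BoundedStatement : Prop :=
  ∀ (N : ℕ) [NeZero N] (ε : DirichletCharacter ℂ N) (f : CuspForm (Gamma1 N) 1),
    HeckeRel N ε (fun n => ModularFormClass.qCoeff f n) →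
    ∃ (S : Finset ℕ) (B : ℕ), ∀ ℓ : ℕ, ℓ.Prime → ℓ ∉ S →
      ∀ (k : Type) [Field k] [CharP k ℓ] [IsAlgClosed k] (φ : integralClosure ℤ ℂ →+* k),
        ∃ ρ : ResidualGaloisRep k,
          IsAttachedModL N ε (fun n => ModularFormClass.qCoeff f n) ℓ φ ρ ∧
          Nat.card (Set.range ρ.ρ) ≤ B

/-- **(END) The complex representation** (helper2: roots of unity + equal kernels +
Nullstellensatz `S48.Null.exists_complex_rep`): everything in `DSConclusion` except
irreducibility. -/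
def ComplexRepStatement : Prop :=
  ∀ (N : ℕ) [NeZero N] (ε : DirichletCharacter ℂ N) (f : CuspForm (Gamma1 N) 1),
    HeckeRel N ε (fun n => ModularFormClass.qCoeff f n) →
    ∃ ρ : Γℚ →* GL (Fin 2) ℂ, GaloisFactorsThroughFiniteLevel ρ ∧
      ∀ p : ℕ, p.Prime → ¬ p ∣ N →
        ∀ A : ValuationSubring (AlgebraicClosure ℚ), A.LiesOverPrime p →
          (∀ σ ∈ A.inertiaSubgroupIn ℚ, ρ σ = 1) ∧
          ∀ σ : Γℚ, A.IsFrobeniusAt σ p →
            ((ρ σ : GL (Fin 2) ℂ) : Matrix (Fin 2) (Fin 2) ℂ).trace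
              = ModularFormClass.qCoeff f p ∧
            ((ρ σ : GL (Fin 2) ℂ) : Matrix (Fin 2) (Fin 2) ℂ).det = ε (p : ZMod N)

/-- **(IRR) Irreducibility** (sharp Rankin `|a_p| ≤ 2` + P5 + orthogonality of characters):
a complex representation with finite image whose Frobenius traces are the `a_p` of a weight-one
cusp form is irreducible. -/
def IrredStatement : Prop :=
  ∀ (N : ℕ) [NeZero N] (ε : DirichletCharacter ℂ N) (f : CuspForm (Gamma1 N) 1),
    HeckeRel N ε (fun n => ModularFormClass.qCoeff f n) →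
    ∀ ρ : Γℚ →* GL (Fin 2) ℂ, GaloisFactorsThroughFiniteLevel ρ →
      (∀ p : ℕ, p.Prime → ¬ p ∣ N →
        ∀ A : ValuationSubring (AlgebraicClosure ℚ), A.LiesOverPrime p →
          ∀ σ : Γℚ, A.IsFrobeniusAt σ p →
            ((ρ σ : GL (Fin 2) ℂ) : Matrix (Fin 2) (Fin 2) ℂ).trace
              = ModularFormClass.qCoeff f p) →
      (Deformation.matrixRepresentation ρ).IsIrreducible

end Fermat.Agent.S48
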