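/-
S48 (Deligne–Serre), seat CONJ (owner helper49): conjugate forms from the integral structure.

`conj_of : IntStructStatement → ConjStatement`: if `f = ∑ xᵢ gᵢ` with the `gᵢ` of integer
`q`-coefficients, then `∑ τ(xᵢ) gᵢ` has the `q`-coefficients `τ(aₙ(f))`.
-/
import Mathlib
import Fermat.Agent.MUL.Orig.S48.Defs
import Fermat.Prelude.Def_FLTPrelim_Modularity
import Fermat.Agent.MUL.F4.Recip.CoprimeNorm

set_option autoImplicit false

namespace Fermat.Agent.S48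

open CongruenceSubgroup ModularFormClass UpperHalfPlane

theorem one_mem_strictPeriods_Gamma1_conj (N : ℕ) :
    (1 : ℝ) ∈ (Gamma1 N : Subgroup (GL (Fin 2) ℝ)).strictPeriods := by
  simp [CongruenceSubgroup.strictPeriods_Gamma1]

theorem qCoeff_add_g1 {N : ℕ} (f g : CuspForm (Gamma1 N) 1) (n : ℕ) :
    qCoeff (⇑(f + g)) n = qCoeff (⇑f) n + qCoeff (⇑g) n := by
  have h := ModularForm.qExpansion_add one_pos (one_mem_strictPeriods_Gamma1_conj N) f g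
  have hc : (⇑(f + g) : ℍ → ℂ) = (⇑f : ℍ → ℂ) + (⇑g : ℍ → ℂ) := rfl
  rw [qCoeff, hc, h, map_add]
  rfl

theorem qCoeff_smul_g1 {N : ℕ} (c : ℂ) (f : CuspForm (Gamma1 N) 1) (n : ℕ) :
    qCoeff (⇑(c • f)) n = c * qCoeff (⇑f) n := by
  have h := ModularForm.qExpansion_smul one_pos (one_mem_strictPeriods_Gamma1_conj N) c f
  have hc : (⇑(c • f) : ℍ → ℂ) = c • (⇑f : ℍ → ℂ) := rfl
  rw [qCoeff, hc, h, PowerSeries.coeff_smul]
  rfl

theorem qCoeff_zero_g1 {N : ℕ} (n : ℕ) :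
    qCoeff (⇑(0 : CuspForm (Gamma1 N) 1)) n = 0 := by
  have h := qCoeff_smul_g1 (0 : ℂ) (0 : CuspForm (Gamma1 N) 1) n
  rw [zero_smul, zero_mul] at h
  exact h

/-- the `q`-coefficient as a linear form. -/
noncomputable def qCoeffLin (N : ℕ) (n : ℕ) : CuspForm (Gamma1 N) 1 →ₗ[ℂ] ℂ where
  toFun f := qCoeff (⇑f) n
  map_add' f g := qCoeff_add_g1 f g n
  map_smul' c f := qCoeff_smul_g1 c f n

@[simp] theorem qCoeffLin_apply (N n : ℕ) (f : CuspForm (Gamma1 N) 1) :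
    qCoeffLin N n f = qCoeff (⇑f) n := rfl

/-- **CONJ**: conjugate forms exist as soon as `S₁(Γ₁(N))` is spanned by forms with integer
`q`-coefficients. -/
theorem conj_of (h : IntStructStatement) : ConjStatement := by
  intro N _ f τ
  have hf := h N f
  refine Submodule.span_induction (p := fun (f : CuspForm (Gamma1 N) 1) _ =>
      ∃ g : CuspForm (Gamma1 N) 1, ∀ n : ℕ, qCoeff (⇑g) n = τ (qCoeff (⇑f) n)) ?_ ?_ ?_ ?_ hf
  · intro g hg
    refine ⟨g, fun n => ?_⟩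
    obtain ⟨m, hm⟩ := hg n
    rw [hm, map_intCast]
  · exact ⟨0, fun n => by rw [qCoeff_zero_g1, map_zero]⟩
  · rintro f₁ f₂ - - ⟨g₁, h₁⟩ ⟨g₂, h₂⟩
    exact ⟨g₁ + g₂, fun n => by rw [qCoeff_add_g1, qCoeff_add_g1, h₁, h₂, map_add]⟩
  · rintro c f₁ - ⟨g₁, h₁⟩
    exact ⟨τ c • g₁, fun n => by rw [qCoeff_smul_g1, qCoeff_smul_g1, h₁, map_mul]⟩

end Fermat.Agent.S48
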